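import Mathlib

/-!
# S58 / [KL-FUN]: basic objects

`ℓ` a prime, `W'` an elliptic curve over `ZMod ℓ`, `k` a field of characteristic `ℓ`.
`s58f_K ℓ W' k` is the function field of `W'` over `k` (Mathlib's `FunctionField` of `W'⁄k`),
`s58f_P0` the generic point `(x, y)` of `W'` over it.
-/

set_option autoImplicit false

namespace Fermat.Agent.S58

open WeierstrassCurve WeierstrassCurve.Affine Polynomial

open scoped Polynomial.Bivariate

variable (ℓ : ℕ) [Fact ℓ.Prime] (W' : WeierstrassCurve (ZMod ℓ))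
  (k : Type*) [Field k] [Algebra (ZMod ℓ) k]

/-- The coordinate ring of `W'` over `k`. -/
abbrev s58f_C : Type _ := (W'⁄k).toAffine.CoordinateRing

/-- The function field of `W'` over `k`. -/
abbrev s58f_K : Type _ := (W'⁄k).toAffine.FunctionField

noncomputable instance s58f_decEqK : DecidableEq (s58f_K ℓ W' k) := Classical.decEq _

/-- The coordinate function `x`. -/
noncomputable def s58f_x : s58f_K ℓ W' k := algebraMap k[X] (s58f_K ℓ W' k) X

/-- The coordinate function `y`. -/
noncomputable def s58f_y : s58f_K ℓ W' k :=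
  algebraMap (s58f_C ℓ W' k) (s58f_K ℓ W' k) (CoordinateRing.mk _ Y)

theorem s58f_x_eq : s58f_x ℓ W' k =
    algebraMap (s58f_C ℓ W' k) (s58f_K ℓ W' k) (CoordinateRing.mk _ (C X)) := by
  unfold s58f_x
  rw [IsScalarTower.algebraMap_apply k[X] (s58f_C ℓ W' k) (s58f_K ℓ W' k)]
  rfl

theorem s58f_baseChange_eq : (W'⁄(s58f_K ℓ W' k)) = ((W'⁄k)⁄(s58f_K ℓ W' k)) := by
  show WeierstrassCurve.map W' _ = WeierstrassCurve.map (WeierstrassCurve.map W' _) _
  rw [WeierstrassCurve.map_map]
  congr 1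

/-- Constants of `k` inside `K`, through the coordinate ring. -/
theorem s58f_algebraMap_const (c : k) :
    algebraMap (s58f_C ℓ W' k) (s58f_K ℓ W' k) (CoordinateRing.mk _ (C (C c))) =
      algebraMap k (s58f_K ℓ W' k) c := by
  rw [IsScalarTower.algebraMap_apply k (s58f_C ℓ W' k) (s58f_K ℓ W' k)]
  rfl

/-- The explicit Weierstrass equation satisfied by `x`, `y` in `K`. -/
theorem s58f_equation_explicit :
    s58f_y ℓ W' k ^ 2 + algebraMap k _ (W'⁄k).a₁ * s58f_x ℓ W' k * s58f_y ℓ W' k +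
        algebraMap k _ (W'⁄k).a₃ * s58f_y ℓ W' k =
      s58f_x ℓ W' k ^ 3 + algebraMap k _ (W'⁄k).a₂ * s58f_x ℓ W' k ^ 2 +
        algebraMap k _ (W'⁄k).a₄ * s58f_x ℓ W' k + algebraMap k _ (W'⁄k).a₆ := by
  have h0 : CoordinateRing.mk (W'⁄k).toAffine (W'⁄k).toAffine.polynomial = 0 := AdjoinRoot.mk_self
  have := congrArg (algebraMap (s58f_C ℓ W' k) (s58f_K ℓ W' k)) h0
  rw [map_zero] at this
  simp only [Affine.polynomial, map_add, map_sub, map_mul, map_pow, s58f_algebraMap_const] at this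
  rw [s58f_x_eq, s58f_y]
  linear_combination this

/-- The generic point satisfies the equation. -/
theorem s58f_equation :
    (W'⁄(s58f_K ℓ W' k)).toAffine.Equation (s58f_x ℓ W' k) (s58f_y ℓ W' k) := by
  rw [s58f_baseChange_eq, Affine.equation_iff]
  exact s58f_equation_explicit ℓ W' k

variable [W'.IsElliptic]

instance s58f_isElliptic_k : (W'⁄k).IsElliptic :=
  inferInstanceAs (WeierstrassCurve.map W' (algebraMap (ZMod ℓ) k)).IsElliptic

instance s58f_isElliptic_K : (W'⁄(s58f_K ℓ W' k)).IsElliptic :=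
  inferInstanceAs (WeierstrassCurve.map W' (algebraMap (ZMod ℓ) (s58f_K ℓ W' k))).IsElliptic

/-- The generic point. -/
noncomputable def s58f_P0 : (W'⁄(s58f_K ℓ W' k)).Point :=
  Point.some (s58f_x ℓ W' k) (s58f_y ℓ W' k)
    ((Affine.equation_iff_nonsingular).mp (s58f_equation ℓ W' k))

/-- Frobenius on the points of `W'` over any field extension `L` of `ZMod ℓ`. -/
noncomputable def s58f_frob (L : Type*) [Field L] [DecidableEq L] [Algebra (ZMod ℓ) L] :
    (W'⁄L).Point →+ (W'⁄L).Point :=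
  Point.map (W' := W') (FiniteField.frobeniusAlgHom (ZMod ℓ) L)

/-- The action of `ℤ[X]` on points through Frobenius. -/
noncomputable def s58f_act (L : Type*) [Field L] [DecidableEq L] [Algebra (ZMod ℓ) L]
    (ψ : ℤ[X]) : (W'⁄L).Point →+ (W'⁄L).Point :=
  aeval (R := ℤ) (A := AddMonoid.End (W'⁄L).Point) (s58f_frob ℓ W' L) ψ

end Fermat.Agent.S58
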