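import Mathlib
import Fermat.Agent.S58.Fun.Defs

/-!
# S58 / [KL-FUN]: the action of `ℤ[X]` on points through Frobenius — basic API
-/

set_option autoImplicit false
set_option linter.unusedSectionVars false

namespace Fermat.Agent.S58

open WeierstrassCurve WeierstrassCurve.Affine Polynomial

variable (ℓ : ℕ) [Fact ℓ.Prime] (W' : WeierstrassCurve (ZMod ℓ)) [W'.IsElliptic]
  (L : Type*) [Field L] [DecidableEq L] [Algebra (ZMod ℓ) L]

theorem s58f_act_add (ψ χ : ℤ[X]) (P : (W'⁄L).Point) :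
    s58f_act ℓ W' L (ψ + χ) P = s58f_act ℓ W' L ψ P + s58f_act ℓ W' L χ P := by
  unfold s58f_act
  rw [map_add]
  rfl

theorem s58f_act_sub (ψ χ : ℤ[X]) (P : (W'⁄L).Point) :
    s58f_act ℓ W' L (ψ - χ) P = s58f_act ℓ W' L ψ P - s58f_act ℓ W' L χ P := by
  unfold s58f_act
  rw [map_sub]
  rfl

theorem s58f_act_mul (ψ χ : ℤ[X]) (P : (W'⁄L).Point) :
    s58f_act ℓ W' L (ψ * χ) P = s58f_act ℓ W' L ψ (s58f_act ℓ W' L χ P) := by
  unfold s58f_act
  rw [map_mul]
  rfl

theorem s58f_act_one (P : (W'⁄L).Point) : s58f_act ℓ W' L 1 P = P := by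
  unfold s58f_act
  rw [map_one]
  rfl

theorem s58f_act_X (P : (W'⁄L).Point) : s58f_act ℓ W' L X P = s58f_frob ℓ W' L P :=
  congrArg (fun f : AddMonoid.End (W'⁄L).Point => f P)
    (aeval_X (R := ℤ) (A := AddMonoid.End (W'⁄L).Point) (s58f_frob ℓ W' L))

theorem s58f_act_C (a : ℤ) (P : (W'⁄L).Point) : s58f_act ℓ W' L (C a) P = a • P := by
  have h := congrArg (fun f : AddMonoid.End (W'⁄L).Point => f P)
    (aeval_C (R := ℤ) (A := AddMonoid.End (W'⁄L).Point) (s58f_frob ℓ W' L) a)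
  rw [eq_intCast] at h
  exact h.trans (AddMonoid.End.intCast_apply a P)

theorem s58f_act_zero (P : (W'⁄L).Point) : s58f_act ℓ W' L 0 P = 0 := by
  unfold s58f_act
  rw [map_zero]
  rfl

theorem s58f_act_X_mul (ψ : ℤ[X]) (P : (W'⁄L).Point) :
    s58f_act ℓ W' L (X * ψ) P = s58f_frob ℓ W' L (s58f_act ℓ W' L ψ P) := by
  rw [s58f_act_mul, s58f_act_X]

/-- A subgroup stable under Frobenius is stable under the whole action. -/
theorem s58f_act_mem (S : AddSubgroup (W'⁄L).Point)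
    (hS : ∀ P ∈ S, s58f_frob ℓ W' L P ∈ S) (ψ : ℤ[X]) :
    ∀ P ∈ S, s58f_act ℓ W' L ψ P ∈ S := by
  induction ψ using Polynomial.induction_on with
  | C a =>
    intro P hP
    rw [s58f_act_C]
    exact S.zsmul_mem hP a
  | add p q hp hq =>
    intro P hP
    rw [s58f_act_add]
    exact S.add_mem (hp P hP) (hq P hP)
  | monomial n a ih =>
    intro P hP
    rw [pow_succ, ← mul_assoc, s58f_act_mul ℓ W' L (C a * X ^ n) X, s58f_act_X]
    exact ih _ (hS P hP)

variable {L} {L' : Type*} [Field L'] [DecidableEq L'] [Algebra (ZMod ℓ) L']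

/-- Every `ZMod ℓ`-algebra homomorphism commutes with Frobenius. -/
theorem s58f_map_frob (f : L →ₐ[ZMod ℓ] L') (P : (W'⁄L).Point) :
    Point.map (W' := W') f (s58f_frob ℓ W' L P) = s58f_frob ℓ W' L' (Point.map (W' := W') f P) := by
  unfold s58f_frob
  rw [Point.map_map, Point.map_map]
  congr 2
  ext z
  simp [FiniteField.coe_frobeniusAlgHom]

theorem s58f_map_act (f : L →ₐ[ZMod ℓ] L') (ψ : ℤ[X]) :
    ∀ P : (W'⁄L).Point,
      Point.map (W' := W') f (s58f_act ℓ W' L ψ P) =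
        s58f_act ℓ W' L' ψ (Point.map (W' := W') f P) := by
  induction ψ using Polynomial.induction_on with
  | C a =>
    intro P
    rw [s58f_act_C, s58f_act_C, map_zsmul]
  | add p q hp hq =>
    intro P
    rw [s58f_act_add, s58f_act_add, map_add, hp, hq]
  | monomial n a ih =>
    intro P
    rw [pow_succ, ← mul_assoc, s58f_act_mul ℓ W' L (C a * X ^ n) X,
      s58f_act_mul ℓ W' L' (C a * X ^ n) X, s58f_act_X, s58f_act_X, ih, s58f_map_frob]

end Fermat.Agent.S58
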