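import Mathlib
import Fermat.Agent.S58.Fun.Defs
import Fermat.Agent.S58.Fun.Act
import Fermat.Agent.S58.Par.Any

/-!
# S58 / [KL-FUN]: the negation involution of the function field
-/

set_option autoImplicit false
set_option linter.unusedSectionVars false

namespace Fermat.Agent.S58

open WeierstrassCurve WeierstrassCurve.Affine Polynomial

open scoped Polynomial.Bivariate

section general

variable {k : Type*} [Field k] (W : Affine k)

theorem s58f_comp_negPolynomial : W.polynomial.comp W.negPolynomial = W.polynomial := by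
  simp only [Affine.polynomial, Affine.negPolynomial, sub_comp, add_comp, mul_comp, pow_comp,
    X_comp, C_comp]
  ring

theorem s58f_iota_aux :
    W.polynomial.eval₂ (Algebra.ofId k[X] W.CoordinateRing : k[X] →+* W.CoordinateRing)
      (CoordinateRing.mk W W.negPolynomial) = 0 := by
  have h1 : (Algebra.ofId k[X] W.CoordinateRing : k[X] →+* W.CoordinateRing) =
      (CoordinateRing.mk W).comp C := rfl
  rw [h1, ← Polynomial.hom_eval₂, ← Polynomial.comp, s58f_comp_negPolynomial]
  exact AdjoinRoot.mk_self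

/-- The negation involution on the coordinate ring. -/
noncomputable def s58f_iotaC : W.CoordinateRing →ₐ[k[X]] W.CoordinateRing :=
  AdjoinRoot.liftAlgHom W.polynomial (Algebra.ofId k[X] W.CoordinateRing)
    (CoordinateRing.mk W W.negPolynomial) (s58f_iota_aux W)

theorem s58f_iotaC_mkY :
    s58f_iotaC W (CoordinateRing.mk W Y) = CoordinateRing.mk W W.negPolynomial :=
  AdjoinRoot.liftAlgHom_root _ _ _ _

theorem s58f_mk_negPolynomial :
    CoordinateRing.mk W W.negPolynomial =
      -CoordinateRing.mk W Y - algebraMap k[X] W.CoordinateRing (C W.a₁ * X + C W.a₃) := by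
  rw [Affine.negPolynomial, map_sub, map_neg]
  rfl

theorem s58f_iotaC_iotaC (z : W.CoordinateRing) : s58f_iotaC W (s58f_iotaC W z) = z := by
  have h : (s58f_iotaC W).comp (s58f_iotaC W) = AlgHom.id k[X] W.CoordinateRing := by
    apply AdjoinRoot.algHom_ext
    show s58f_iotaC W (s58f_iotaC W (CoordinateRing.mk W Y)) = CoordinateRing.mk W Y
    rw [s58f_iotaC_mkY, s58f_mk_negPolynomial, map_sub, map_neg, s58f_iotaC_mkY,
      s58f_mk_negPolynomial, AlgHom.commutes]
    ring
  exact congrArg (fun f => f z) h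

theorem s58f_iotaC_injective : Function.Injective (s58f_iotaC W) :=
  Function.LeftInverse.injective (s58f_iotaC_iotaC W)

theorem s58f_iotaC_basis (p q : k[X]) :
    s58f_iotaC W (p • (1 : W.CoordinateRing) + q • CoordinateRing.mk W Y) =
      (p - q * (C W.a₁ * X + C W.a₃)) • (1 : W.CoordinateRing) +
        (-q) • CoordinateRing.mk W Y := by
  rw [map_add, map_smul, map_smul, map_one, s58f_iotaC_mkY, s58f_mk_negPolynomial]
  simp only [Algebra.smul_def, mul_one, map_sub, map_mul, map_neg]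
  ring

/-- The norm form. -/
noncomputable def s58f_nrm (p q : k[X]) : k[X] :=
  p ^ 2 - p * q * (C W.a₁ * X + C W.a₃) -
    q ^ 2 * (X ^ 3 + C W.a₂ * X ^ 2 + C W.a₄ * X + C W.a₆)

theorem s58f_mul_iotaC (p q : k[X]) :
    (p • (1 : W.CoordinateRing) + q • CoordinateRing.mk W Y) *
        s58f_iotaC W (p • (1 : W.CoordinateRing) + q • CoordinateRing.mk W Y) =
      algebraMap k[X] W.CoordinateRing (s58f_nrm W p q) := by
  rw [s58f_iotaC_basis]
  have h0 : CoordinateRing.mk W W.polynomial = 0 := AdjoinRoot.mk_self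
  simp only [Affine.polynomial, map_add, map_sub, map_mul, map_pow] at h0
  have hC : ∀ r : k[X], CoordinateRing.mk W (C r) = algebraMap k[X] W.CoordinateRing r :=
    fun r => rfl
  simp only [hC] at h0
  simp only [s58f_nrm, Algebra.smul_def, mul_one, map_sub, map_mul, map_neg, map_pow, map_add]
  linear_combination (-(algebraMap k[X] W.CoordinateRing q) ^ 2) * h0

theorem s58f_exists_nrm (z : W.CoordinateRing) (hz : z ≠ 0) :
    ∃ n : k[X], n ≠ 0 ∧ z * s58f_iotaC W z = algebraMap k[X] W.CoordinateRing n := by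
  obtain ⟨p, q, rfl⟩ := CoordinateRing.exists_smul_basis_eq z
  refine ⟨s58f_nrm W p q, ?_, s58f_mul_iotaC W p q⟩
  intro h0
  have h := s58f_mul_iotaC W p q
  rw [h0, map_zero] at h
  rcases mul_eq_zero.mp h with h | h
  · exact hz h
  · exact hz (s58f_iotaC_injective W (h.trans (map_zero _).symm))

/-- The composite `C → C → K`. -/
noncomputable def s58f_iotaCK : W.CoordinateRing →ₐ[k] W.FunctionField :=
  (IsScalarTower.toAlgHom k W.CoordinateRing W.FunctionField).comp
    ((s58f_iotaC W).restrictScalars k)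

theorem s58f_iotaCK_apply (z : W.CoordinateRing) :
    s58f_iotaCK W z = algebraMap W.CoordinateRing W.FunctionField (s58f_iotaC W z) := rfl

theorem s58f_iotaCK_injective : Function.Injective (s58f_iotaCK W) := by
  intro a b h
  rw [s58f_iotaCK_apply, s58f_iotaCK_apply] at h
  exact s58f_iotaC_injective W (IsFractionRing.injective W.CoordinateRing W.FunctionField h)

/-- The negation involution on the function field. -/
noncomputable def s58f_iotaK : W.FunctionField →ₐ[k] W.FunctionField :=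
  IsFractionRing.liftAlgHom (A := W.CoordinateRing) (K := W.FunctionField)
    (g := s58f_iotaCK W) (s58f_iotaCK_injective W)

theorem s58f_iotaK_algebraMap (z : W.CoordinateRing) :
    s58f_iotaK W (algebraMap W.CoordinateRing W.FunctionField z) =
      algebraMap W.CoordinateRing W.FunctionField (s58f_iotaC W z) := by
  unfold s58f_iotaK
  rw [IsFractionRing.coe_liftAlgHom]
  exact IsFractionRing.lift_algebraMap _ z

theorem s58f_iotaK_poly (p : k[X]) :
    s58f_iotaK W (algebraMap k[X] W.FunctionField p) = algebraMap k[X] W.FunctionField p := by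
  rw [IsScalarTower.algebraMap_apply k[X] W.CoordinateRing W.FunctionField,
    s58f_iotaK_algebraMap, AlgHom.commutes]

theorem s58f_two_or_ne_zero (hΔ : W.Δ ≠ 0) :
    (2 : k[X]) ≠ 0 ∨ (C W.a₁ * X + C W.a₃ : k[X]) ≠ 0 := by
  by_contra hcon
  push Not at hcon
  obtain ⟨h2, h13⟩ := hcon
  have h2' : (2 : k) = 0 := by
    have := congrArg (fun p : k[X] => p.coeff 0) h2
    simpa using this
  have ha1 : W.a₁ = 0 := by
    have := congrArg (fun p : k[X] => p.coeff 1) h13
    simpa using this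
  have ha3 : W.a₃ = 0 := by
    have := congrArg (fun p : k[X] => p.coeff 0) h13
    simpa using this
  apply hΔ
  simp only [WeierstrassCurve.Δ, WeierstrassCurve.b₂, WeierstrassCurve.b₄, WeierstrassCurve.b₆,
    WeierstrassCurve.b₈, ha1, ha3]
  linear_combination (-8 * W.a₂ ^ 2 * (4 * W.a₂ * W.a₆ - W.a₄ ^ 2) - 32 * W.a₄ ^ 3
    - 216 * W.a₆ ^ 2 + 144 * W.a₂ * W.a₄ * W.a₆) * h2'

/-- An element of the function field fixed by the involution is a rational function of `x`. -/
theorem s58f_iotaK_fixed (hΔ : W.Δ ≠ 0) (z : W.FunctionField) (hz : s58f_iotaK W z = z) :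
    ∃ P n : k[X], n ≠ 0 ∧
      z * algebraMap k[X] W.FunctionField n = algebraMap k[X] W.FunctionField P := by
  obtain ⟨c, d, hd, rfl⟩ := IsFractionRing.div_surjective (A := W.CoordinateRing) z
  have hd0 : d ≠ 0 := nonZeroDivisors.ne_zero hd
  obtain ⟨n, hn0, hn⟩ := s58f_exists_nrm W d hd0
  obtain ⟨P, Q, hPQ⟩ := CoordinateRing.exists_smul_basis_eq (c * s58f_iotaC W d)
  have hdK : algebraMap W.CoordinateRing W.FunctionField d ≠ 0 := by
    intro h
    exact hd0 (IsFractionRing.injective W.CoordinateRing W.FunctionField (h.trans (map_zero _).symm))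
  have hnK : algebraMap k[X] W.FunctionField n =
      algebraMap W.CoordinateRing W.FunctionField d *
        algebraMap W.CoordinateRing W.FunctionField (s58f_iotaC W d) := by
    rw [IsScalarTower.algebraMap_apply k[X] W.CoordinateRing W.FunctionField, ← hn, map_mul]
  have hzn : algebraMap W.CoordinateRing W.FunctionField c /
      algebraMap W.CoordinateRing W.FunctionField d * algebraMap k[X] W.FunctionField n =
      algebraMap W.CoordinateRing W.FunctionField (c * s58f_iotaC W d) := by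
    rw [hnK, map_mul]
    field_simp
  -- apply the involution
  have hfix : s58f_iotaC W (c * s58f_iotaC W d) = c * s58f_iotaC W d := by
    apply IsFractionRing.injective W.CoordinateRing W.FunctionField
    rw [← s58f_iotaK_algebraMap, ← hzn, map_mul, hz, s58f_iotaK_poly]
  rw [← hPQ, s58f_iotaC_basis] at hfix
  have h0 : (-(Q * (C W.a₁ * X + C W.a₃))) • (1 : W.CoordinateRing) +
      (-(2 * Q)) • CoordinateRing.mk W Y = 0 := by
    have : (-(Q * (C W.a₁ * X + C W.a₃))) • (1 : W.CoordinateRing) +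
        (-(2 * Q)) • CoordinateRing.mk W Y =
        ((P - Q * (C W.a₁ * X + C W.a₃)) • (1 : W.CoordinateRing) +
          (-Q) • CoordinateRing.mk W Y) -
        (P • (1 : W.CoordinateRing) + Q • CoordinateRing.mk W Y) := by
      simp only [Algebra.smul_def, mul_one, map_sub, map_mul, map_neg, map_ofNat]
      ring
    rw [this, hfix, sub_self]
  obtain ⟨h1, h2⟩ := CoordinateRing.smul_basis_eq_zero h0
  have hQ : Q = 0 := by
    rcases s58f_two_or_ne_zero W hΔ with h | h
    · rcases mul_eq_zero.mp (neg_eq_zero.mp h2) with h' | h'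
      · exact absurd h' h
      · exact h'
    · rcases mul_eq_zero.mp (neg_eq_zero.mp h1) with h' | h'
      · exact h'
      · exact absurd h' h
  refine ⟨P, n, hn0, ?_⟩
  rw [hzn, ← hPQ, hQ, zero_smul, add_zero, Algebra.smul_def, mul_one,
    ← IsScalarTower.algebraMap_apply]

end general

section reduce

variable {k : Type*} [Field k]

/-- Reduce a fraction of polynomials to lowest terms. -/
theorem s58f_exists_coprime (P n : k[X]) (hn : n ≠ 0) :
    ∃ g a b : k[X], g ≠ 0 ∧ b ≠ 0 ∧ IsCoprime a b ∧ P = g * a ∧ n = g * b := by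
  classical
  obtain ⟨a, ha⟩ := EuclideanDomain.gcd_dvd_left P n
  obtain ⟨b, hb⟩ := EuclideanDomain.gcd_dvd_right P n
  have hg : EuclideanDomain.gcd P n ≠ 0 := by
    intro h
    rw [EuclideanDomain.gcd_eq_zero_iff] at h
    exact hn h.2
  have hb0 : b ≠ 0 := by
    rintro rfl
    rw [mul_zero] at hb
    exact hn hb
  refine ⟨EuclideanDomain.gcd P n, a, b, hg, hb0, ?_, ha, hb⟩
  refine ⟨EuclideanDomain.gcdA P n, EuclideanDomain.gcdB P n, ?_⟩
  apply mul_left_cancel₀ hg
  have h := EuclideanDomain.gcd_eq_gcd_ab P n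
  calc EuclideanDomain.gcd P n * (EuclideanDomain.gcdA P n * a + EuclideanDomain.gcdB P n * b)
      = (EuclideanDomain.gcd P n * a) * EuclideanDomain.gcdA P n +
          (EuclideanDomain.gcd P n * b) * EuclideanDomain.gcdB P n := by ring
    _ = EuclideanDomain.gcd P n * 1 := by rw [← ha, ← hb, ← h, mul_one]

variable {F : Type*} [Field F] [Algebra k[X] F] {WF : WeierstrassCurve F}

/-- An affine point whose `x`-coordinate is a quotient of polynomials is rational. -/
theorem s58f_isRatA_some_of_quot (hinj : Function.Injective (algebraMap k[X] F)) {x y : F}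
    (h : WF.toAffine.Nonsingular x y) {P n : k[X]} (hn : n ≠ 0)
    (hx : x * algebraMap k[X] F n = algebraMap k[X] F P) :
    s58p_IsRatA (k := k) (Point.some x y h) := by
  obtain ⟨g, a, b, hg, hb, hab, rfl, rfl⟩ := s58f_exists_coprime P n hn
  have hgF : algebraMap k[X] F g ≠ 0 := fun h0 => hg (hinj (h0.trans (map_zero _).symm))
  have hbF : algebraMap k[X] F b ≠ 0 := fun h0 => hb (hinj (h0.trans (map_zero _).symm))
  refine ⟨a, b, s58p_repA_some h hab hbF ?_⟩
  rw [map_mul, map_mul] at hx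
  apply mul_left_cancel₀ hgF
  linear_combination hx

end reduce

section special

variable (ℓ : ℕ) [Fact ℓ.Prime] (W' : WeierstrassCurve (ZMod ℓ))
  (k : Type*) [Field k] [Algebra (ZMod ℓ) k]

/-- The negation involution of the function field, as a `ZMod ℓ`-algebra map. -/
noncomputable def s58f_iota : s58f_K ℓ W' k →ₐ[ZMod ℓ] s58f_K ℓ W' k :=
  (s58f_iotaK (W'⁄k).toAffine).restrictScalars (ZMod ℓ)

theorem s58f_iota_poly (p : k[X]) :
    s58f_iota ℓ W' k (algebraMap k[X] (s58f_K ℓ W' k) p) = algebraMap k[X] (s58f_K ℓ W' k) p :=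
  s58f_iotaK_poly _ p

theorem s58f_iota_x : s58f_iota ℓ W' k (s58f_x ℓ W' k) = s58f_x ℓ W' k := by
  unfold s58f_x
  exact s58f_iota_poly ℓ W' k X

theorem s58f_algebraMap_C (a : k) :
    algebraMap k[X] (s58f_K ℓ W' k) (C a) = algebraMap k (s58f_K ℓ W' k) a := by
  rw [IsScalarTower.algebraMap_apply k k[X] (s58f_K ℓ W' k), Polynomial.algebraMap_eq]

theorem s58f_iota_y : s58f_iota ℓ W' k (s58f_y ℓ W' k) =
    -s58f_y ℓ W' k - (algebraMap k _ (W'⁄k).a₁ * s58f_x ℓ W' k + algebraMap k _ (W'⁄k).a₃) := by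
  show s58f_iotaK (W'⁄k).toAffine (s58f_y ℓ W' k) = _
  unfold s58f_y
  rw [s58f_iotaK_algebraMap, s58f_iotaC_mkY, s58f_mk_negPolynomial, map_sub, map_neg,
    ← IsScalarTower.algebraMap_apply k[X] (s58f_C ℓ W' k) (s58f_K ℓ W' k), map_add, map_mul,
    s58f_algebraMap_C, s58f_algebraMap_C]
  rfl

theorem s58f_a₁_eq : (W'⁄(s58f_K ℓ W' k)).a₁ = algebraMap k (s58f_K ℓ W' k) (W'⁄k).a₁ := by
  rw [s58f_baseChange_eq]; rfl

theorem s58f_a₂_eq : (W'⁄(s58f_K ℓ W' k)).a₂ = algebraMap k (s58f_K ℓ W' k) (W'⁄k).a₂ := by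
  rw [s58f_baseChange_eq]; rfl

theorem s58f_a₃_eq : (W'⁄(s58f_K ℓ W' k)).a₃ = algebraMap k (s58f_K ℓ W' k) (W'⁄k).a₃ := by
  rw [s58f_baseChange_eq]; rfl

theorem s58f_a₄_eq : (W'⁄(s58f_K ℓ W' k)).a₄ = algebraMap k (s58f_K ℓ W' k) (W'⁄k).a₄ := by
  rw [s58f_baseChange_eq]; rfl

theorem s58f_a₆_eq : (W'⁄(s58f_K ℓ W' k)).a₆ = algebraMap k (s58f_K ℓ W' k) (W'⁄k).a₆ := by
  rw [s58f_baseChange_eq]; rfl

variable [W'.IsElliptic]

theorem s58f_map_iota_P0 :
    Point.map (W' := W') (s58f_iota ℓ W' k) (s58f_P0 ℓ W' k) = -s58f_P0 ℓ W' k := by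
  unfold s58f_P0
  rw [Point.map_some, Point.neg_some]
  simp only [Point.some.injEq]
  refine ⟨s58f_iota_x ℓ W' k, ?_⟩
  rw [s58f_iota_y, Affine.negY, s58f_a₁_eq, s58f_a₃_eq]
  ring

theorem s58f_polyInj :
    Function.Injective (algebraMap k[X] (s58f_K ℓ W' k)) := by
  rw [IsScalarTower.algebraMap_eq k[X] (s58f_C ℓ W' k) (s58f_K ℓ W' k)]
  exact (IsFractionRing.injective (s58f_C ℓ W' k) (s58f_K ℓ W' k)).comp
    (FaithfulSMul.algebraMap_injective k[X] (s58f_C ℓ W' k))

/-- The points on which the involution acts as negation. -/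
noncomputable def s58f_minusSub : AddSubgroup (W'⁄(s58f_K ℓ W' k)).Point :=
  AddMonoidHom.eqLocus (Point.map (W' := W') (s58f_iota ℓ W' k))
    (-AddMonoidHom.id (W'⁄(s58f_K ℓ W' k)).Point)

theorem s58f_mem_minusSub (Q : (W'⁄(s58f_K ℓ W' k)).Point) :
    Q ∈ s58f_minusSub ℓ W' k ↔ Point.map (W' := W') (s58f_iota ℓ W' k) Q = -Q := Iff.rfl

theorem s58f_act_P0_mem (ψ : ℤ[X]) :
    s58f_act ℓ W' (s58f_K ℓ W' k) ψ (s58f_P0 ℓ W' k) ∈ s58f_minusSub ℓ W' k := by
  apply s58f_act_mem ℓ W' (s58f_K ℓ W' k) (s58f_minusSub ℓ W' k)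
  · intro P hP
    rw [s58f_mem_minusSub] at hP ⊢
    rw [s58f_map_frob, hP, map_neg]
  · exact s58f_map_iota_P0 ℓ W' k

/-- **(F1)** the `x`-coordinate of `ψ·P₀` is a rational function of `x`. -/
theorem s58f_isRat (ψ : ℤ[X]) :
    s58p_IsRatA (k := k) (s58f_act ℓ W' (s58f_K ℓ W' k) ψ (s58f_P0 ℓ W' k)) := by
  have hmem := s58f_act_P0_mem ℓ W' k ψ
  rw [s58f_mem_minusSub] at hmem
  generalize s58f_act ℓ W' (s58f_K ℓ W' k) ψ (s58f_P0 ℓ W' k) = Q at hmem
  rcases Q with _ | ⟨u, v, h⟩
  · exact s58p_isRatA_zero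
  · rw [Point.map_some, Point.neg_some] at hmem
    simp only [Point.some.injEq] at hmem
    have hΔ : (W'⁄k).toAffine.Δ ≠ 0 := (W'⁄k).isUnit_Δ.ne_zero
    obtain ⟨P, n, hn, hz⟩ := s58f_iotaK_fixed (W'⁄k).toAffine hΔ u hmem.1
    exact s58f_isRatA_some_of_quot (s58f_polyInj ℓ W' k) h hn hz

end special

end Fermat.Agent.S58
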