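import Mathlib
import Fermat.Agent.S58.Fun.Iota

/-!
# S58 / [KL-FUN]: the degree function `N` on `ℤ[X]` — definition, (F2), (F3)
-/

set_option autoImplicit false
set_option linter.unusedSectionVars false

namespace Fermat.Agent.S58

open WeierstrassCurve WeierstrassCurve.Affine Polynomial

variable (ℓ : ℕ) [Fact ℓ.Prime] (W' : WeierstrassCurve (ZMod ℓ)) [W'.IsElliptic]
  (k : Type*) [Field k] [Algebra (ZMod ℓ) k]

/-- The degree of (the `x`-coordinate of) `ψ(Frob)·P₀`. -/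
noncomputable def s58f_N (ψ : ℤ[X]) : ℕ :=
  s58p_degA (k := k) (s58f_act ℓ W' (s58f_K ℓ W' k) ψ (s58f_P0 ℓ W' k))

/-- **(F2)** the parallelogram law. -/
theorem s58f_N_parallelogram (ψ χ : ℤ[X]) :
    s58f_N ℓ W' k (ψ + χ) + s58f_N ℓ W' k (ψ - χ) =
      2 * s58f_N ℓ W' k ψ + 2 * s58f_N ℓ W' k χ := by
  unfold s58f_N
  rw [s58f_act_add, s58f_act_sub]
  refine s58p_parallelogram_any (W'⁄k) (s58f_baseChange_eq ℓ W' k) (s58f_polyInj ℓ W' k)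
    (s58f_isRat ℓ W' k ψ) (s58f_isRat ℓ W' k χ) ?_ ?_
  · rw [← s58f_act_add]
    exact s58f_isRat ℓ W' k (ψ + χ)
  · rw [← s58f_act_sub]
    exact s58f_isRat ℓ W' k (ψ - χ)

theorem s58f_N_parallelogram_int (ψ χ : ℤ[X]) :
    (s58f_N ℓ W' k (ψ + χ) : ℤ) + (s58f_N ℓ W' k (ψ - χ) : ℤ) =
      2 * (s58f_N ℓ W' k ψ : ℤ) + 2 * (s58f_N ℓ W' k χ : ℤ) := by
  exact_mod_cast s58f_N_parallelogram ℓ W' k ψ χ

theorem s58f_rep_P0 : s58p_RepA (k := k) (s58f_P0 ℓ W' k) X 1 := by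
  unfold s58f_P0
  refine s58p_repA_some _ isCoprime_one_right ?_ ?_
  · rw [map_one]; exact one_ne_zero
  · rw [map_one, mul_one]; rfl

/-- **(F3a)** `N(1) = 1`. -/
theorem s58f_N_one : s58f_N ℓ W' k 1 = 1 := by
  unfold s58f_N
  rw [s58f_act_one, s58p_degA_eq (s58f_polyInj ℓ W' k) (s58f_rep_P0 ℓ W' k)]
  simp

theorem s58f_N_zero : s58f_N ℓ W' k 0 = 0 := by
  unfold s58f_N
  rw [s58f_act_zero, s58p_degA_zero (s58f_polyInj ℓ W' k)]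

theorem s58f_frob_some {u v : s58f_K ℓ W' k} (h : (W'⁄(s58f_K ℓ W' k)).Nonsingular u v) :
    ∃ h', s58f_frob ℓ W' (s58f_K ℓ W' k) (Point.some u v h) = Point.some (u ^ ℓ) (v ^ ℓ) h' := by
  have h1 : ∀ z : s58f_K ℓ W' k,
      FiniteField.frobeniusAlgHom (ZMod ℓ) (s58f_K ℓ W' k) z = z ^ ℓ := by
    intro z
    simp [FiniteField.coe_frobeniusAlgHom, ZMod.card]
  obtain ⟨hns, he⟩ : ∃ hns, s58f_frob ℓ W' (s58f_K ℓ W' k) (Point.some u v h) =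
      Point.some (FiniteField.frobeniusAlgHom (ZMod ℓ) (s58f_K ℓ W' k) u)
        (FiniteField.frobeniusAlgHom (ZMod ℓ) (s58f_K ℓ W' k) v) hns :=
    ⟨_, Point.map_some (W' := W') (FiniteField.frobeniusAlgHom (ZMod ℓ) (s58f_K ℓ W' k)) h⟩
  rw [he]
  clear he
  revert hns
  rw [h1, h1]
  intro hns
  exact ⟨hns, rfl⟩

/-- Frobenius multiplies representations by `ℓ`-th powers. -/
theorem s58f_rep_frob {Q : (W'⁄(s58f_K ℓ W' k)).Point} {a b : k[X]}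
    (hr : s58p_RepA (k := k) Q a b) (hQ : Q ≠ 0) :
    s58p_RepA (k := k) (s58f_frob ℓ W' (s58f_K ℓ W' k) Q) (a ^ ℓ) (b ^ ℓ) := by
  rcases Q with _ | ⟨u, v, h⟩
  · exact absurd rfl hQ
  · obtain ⟨hb, hx⟩ := s58p_repA_some_iff h hr
    obtain ⟨h', he⟩ := s58f_frob_some ℓ W' k h
    rw [he]
    refine s58p_repA_some h' (hr.1.pow) ?_ ?_
    · rw [map_pow]
      apply pow_ne_zero
      exact fun h0 => hb (s58f_polyInj ℓ W' k (h0.trans (map_zero _).symm))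
    · rw [map_pow, map_pow, ← mul_pow, hx]

/-- **(F3b)** `N(X ψ) = ℓ N(ψ)`. -/
theorem s58f_N_X_mul (ψ : ℤ[X]) : s58f_N ℓ W' k (X * ψ) = ℓ * s58f_N ℓ W' k ψ := by
  unfold s58f_N
  rw [s58f_act_X_mul]
  by_cases hQ : s58f_act ℓ W' (s58f_K ℓ W' k) ψ (s58f_P0 ℓ W' k) = 0
  · rw [hQ, map_zero, s58p_degA_zero (s58f_polyInj ℓ W' k), mul_zero]
  · obtain ⟨a, b, hr⟩ := s58f_isRat ℓ W' k ψ
    rw [s58p_degA_eq (s58f_polyInj ℓ W' k) hr,
      s58p_degA_eq (s58f_polyInj ℓ W' k) (s58f_rep_frob ℓ W' k hr hQ), natDegree_pow,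
      natDegree_pow, Nat.mul_max_mul_left]

end Fermat.Agent.S58
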