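import Mathlib
import Fermat.Agent.S58.Fun.Iota

/-!
# S58 / [KL-FUN]: evaluation of the function field at a non-constant point
-/

set_option autoImplicit false
set_option linter.unusedSectionVars false

namespace Fermat.Agent.S58

open WeierstrassCurve WeierstrassCurve.Affine Polynomial

open scoped Polynomial.Bivariate

section general

variable {k : Type*} [Field k] (W : Affine k) {L : Type*} [Field L] [Algebra k L]

/-- The explicit Weierstrass equation for a pair `(u, v)` over an extension of `k`. -/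
def s58f_EqAt (u v : L) : Prop :=
  v ^ 2 + algebraMap k L W.a₁ * u * v + algebraMap k L W.a₃ * v =
    u ^ 3 + algebraMap k L W.a₂ * u ^ 2 + algebraMap k L W.a₄ * u + algebraMap k L W.a₆

theorem s58f_theta_aux {u v : L} (h : s58f_EqAt W u v) :
    W.polynomial.eval₂ ((aeval u : k[X] →ₐ[k] L) : k[X] →+* L) v = 0 := by
  simp only [Affine.polynomial, eval₂_sub, eval₂_add, eval₂_mul, eval₂_pow, eval₂_X, eval₂_C,
    RingHom.coe_coe, map_add, map_mul, map_pow, aeval_X, aeval_C]
  unfold s58f_EqAt at h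
  linear_combination h

/-- Evaluation on the coordinate ring. -/
noncomputable def s58f_thetaC {u v : L} (h : s58f_EqAt W u v) : W.CoordinateRing →ₐ[k] L :=
  AdjoinRoot.liftAlgHom W.polynomial (aeval u : k[X] →ₐ[k] L) v (s58f_theta_aux W h)

theorem s58f_thetaC_poly {u v : L} (h : s58f_EqAt W u v) (p : k[X]) :
    s58f_thetaC W h (algebraMap k[X] W.CoordinateRing p) = aeval u p :=
  AdjoinRoot.liftAlgHom_of _ _ _ _ p

theorem s58f_thetaC_mkY {u v : L} (h : s58f_EqAt W u v) :
    s58f_thetaC W h (CoordinateRing.mk W Y) = v :=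
  AdjoinRoot.liftAlgHom_root _ _ _ _

theorem s58f_thetaC_injective {u v : L} (h : s58f_EqAt W u v) (htr : Transcendental k u) :
    Function.Injective (s58f_thetaC W h) := by
  rw [injective_iff_map_eq_zero]
  intro z hz
  by_contra hz0
  obtain ⟨n, hn0, hn⟩ := s58f_exists_nrm W z hz0
  have h1 := congrArg (s58f_thetaC W h) hn
  rw [map_mul, hz, zero_mul, s58f_thetaC_poly] at h1
  exact hn0 ((transcendental_iff.mp htr) n h1.symm)

/-- Evaluation on the function field at a point with transcendental `x`-coordinate. -/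
noncomputable def s58f_thetaK {u v : L} (h : s58f_EqAt W u v) (htr : Transcendental k u) :
    W.FunctionField →ₐ[k] L :=
  IsFractionRing.liftAlgHom (A := W.CoordinateRing) (K := W.FunctionField)
    (g := s58f_thetaC W h) (s58f_thetaC_injective W h htr)

theorem s58f_thetaK_algebraMap {u v : L} (h : s58f_EqAt W u v) (htr : Transcendental k u)
    (z : W.CoordinateRing) :
    s58f_thetaK W h htr (algebraMap W.CoordinateRing W.FunctionField z) = s58f_thetaC W h z := by
  unfold s58f_thetaK
  rw [IsFractionRing.coe_liftAlgHom]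
  exact IsFractionRing.lift_algebraMap _ z

theorem s58f_thetaK_poly {u v : L} (h : s58f_EqAt W u v) (htr : Transcendental k u) (p : k[X]) :
    s58f_thetaK W h htr (algebraMap k[X] W.FunctionField p) = aeval u p := by
  rw [IsScalarTower.algebraMap_apply k[X] W.CoordinateRing W.FunctionField,
    s58f_thetaK_algebraMap, s58f_thetaC_poly]

theorem s58f_mem_range_of_isIntegral [IsAlgClosed k] {x : L} (hx : IsIntegral k x) :
    ∃ a : k, algebraMap k L a = x := by
  refine ⟨-(minpoly k x).coeff 0, ?_⟩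
  have hq : (minpoly k x).leadingCoeff = 1 := minpoly.monic hx
  have h : (minpoly k x).degree = 1 :=
    IsAlgClosed.degree_eq_one_of_irreducible k (minpoly.irreducible hx)
  have : aeval x (minpoly k x) = 0 := minpoly.aeval k x
  rw [eq_X_add_C_of_degree_eq_one h, hq, C_1, one_mul, aeval_add, aeval_X, aeval_C,
    add_eq_zero_iff_eq_neg] at this
  exact (map_neg (algebraMap k L) ((minpoly k x).coeff 0)).symm ▸ this.symm

theorem s58f_transcendental_of_not_mem_range [IsAlgClosed k] {x : L}
    (hx : ∀ a : k, algebraMap k L a ≠ x) : Transcendental k x := by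
  intro halg
  obtain ⟨a, ha⟩ := s58f_mem_range_of_isIntegral halg.isIntegral
  exact hx a ha

/-- Over an algebraically closed field, a point with constant `x` has constant `y`. -/
theorem s58f_y_const [IsAlgClosed k] {a : k} {v : L} (h : s58f_EqAt W (algebraMap k L a) v) :
    ∃ b : k, algebraMap k L b = v := by
  apply s58f_mem_range_of_isIntegral
  refine ⟨X ^ 2 + (C (W.a₁ * a + W.a₃) * X +
    C (-(a ^ 3 + W.a₂ * a ^ 2 + W.a₄ * a + W.a₆))), ?_, ?_⟩
  · apply monic_X_pow_add
    refine lt_of_le_of_lt degree_linear_le ?_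
    norm_num
  · unfold s58f_EqAt at h
    rw [eval₂_add, eval₂_add, eval₂_mul, eval₂_pow, eval₂_X, eval₂_C, eval₂_C]
    simp only [map_add, map_mul, map_pow, map_neg]
    linear_combination h

end general

section special

variable (ℓ : ℕ) [Fact ℓ.Prime] (W' : WeierstrassCurve (ZMod ℓ))
  (k : Type*) [Field k] [Algebra (ZMod ℓ) k]

theorem s58f_eqAt_of_nonsingular {u v : s58f_K ℓ W' k}
    (h : (W'⁄(s58f_K ℓ W' k)).Nonsingular u v) : s58f_EqAt (W'⁄k).toAffine u v := by
  have h1 := h.1
  rw [Affine.equation_iff, s58f_a₁_eq, s58f_a₂_eq, s58f_a₃_eq, s58f_a₄_eq, s58f_a₆_eq] at h1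
  exact h1

variable {ℓ W' k}

/-- Evaluation of the function field at a point `(u, v)` with transcendental `u`. -/
noncomputable def s58f_theta {u v : s58f_K ℓ W' k}
    (h : (W'⁄(s58f_K ℓ W' k)).Nonsingular u v) (htr : Transcendental k u) :
    s58f_K ℓ W' k →ₐ[ZMod ℓ] s58f_K ℓ W' k :=
  (s58f_thetaK (W'⁄k).toAffine (s58f_eqAt_of_nonsingular ℓ W' k h) htr).restrictScalars (ZMod ℓ)

theorem s58f_theta_const {u v : s58f_K ℓ W' k}
    (h : (W'⁄(s58f_K ℓ W' k)).Nonsingular u v) (htr : Transcendental k u) (a : k) :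
    s58f_theta h htr (algebraMap k (s58f_K ℓ W' k) a) = algebraMap k (s58f_K ℓ W' k) a :=
  (s58f_thetaK (W'⁄k).toAffine (s58f_eqAt_of_nonsingular ℓ W' k h) htr).commutes a

theorem s58f_theta_poly {u v : s58f_K ℓ W' k}
    (h : (W'⁄(s58f_K ℓ W' k)).Nonsingular u v) (htr : Transcendental k u) (p : k[X]) :
    s58f_theta h htr (algebraMap k[X] (s58f_K ℓ W' k) p) = aeval u p :=
  s58f_thetaK_poly (W'⁄k).toAffine (s58f_eqAt_of_nonsingular ℓ W' k h) htr p

theorem s58f_theta_x {u v : s58f_K ℓ W' k}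
    (h : (W'⁄(s58f_K ℓ W' k)).Nonsingular u v) (htr : Transcendental k u) :
    s58f_theta h htr (s58f_x ℓ W' k) = u := by
  unfold s58f_x
  rw [s58f_theta_poly, aeval_X]

theorem s58f_theta_y {u v : s58f_K ℓ W' k}
    (h : (W'⁄(s58f_K ℓ W' k)).Nonsingular u v) (htr : Transcendental k u) :
    s58f_theta h htr (s58f_y ℓ W' k) = v := by
  show s58f_thetaK (W'⁄k).toAffine (s58f_eqAt_of_nonsingular ℓ W' k h) htr (s58f_y ℓ W' k) = v
  unfold s58f_y
  rw [s58f_thetaK_algebraMap, s58f_thetaC_mkY]

variable [W'.IsElliptic]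

theorem s58f_map_theta_P0 {u v : s58f_K ℓ W' k}
    (h : (W'⁄(s58f_K ℓ W' k)).Nonsingular u v) (htr : Transcendental k u) :
    Point.map (W' := W') (s58f_theta h htr) (s58f_P0 ℓ W' k) = Point.some u v h := by
  unfold s58f_P0
  rw [Point.map_some]
  simp only [Point.some.injEq]
  exact ⟨s58f_theta_x h htr, s58f_theta_y h htr⟩

/-- `ψ·(u, v)` is the image of `ψ·P₀` under evaluation at `(u, v)`. -/
theorem s58f_act_eq_map_theta {u v : s58f_K ℓ W' k}
    (h : (W'⁄(s58f_K ℓ W' k)).Nonsingular u v) (htr : Transcendental k u) (ψ : ℤ[X]) :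
    s58f_act ℓ W' (s58f_K ℓ W' k) ψ (Point.some u v h) =
      Point.map (W' := W') (s58f_theta h htr)
        (s58f_act ℓ W' (s58f_K ℓ W' k) ψ (s58f_P0 ℓ W' k)) := by
  rw [s58f_map_act, s58f_map_theta_P0]

end special

end Fermat.Agent.S58
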