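import Mathlib
import Fermat.Agent.S58.Fun.Eval
import Fermat.Agent.S58.Fun.Norm

/-!
# S58 / [KL-FUN]: constant points
-/

set_option autoImplicit false
set_option linter.unusedSectionVars false

namespace Fermat.Agent.S58

open WeierstrassCurve WeierstrassCurve.Affine Polynomial

variable (ℓ : ℕ) [Fact ℓ.Prime] (W' : WeierstrassCurve (ZMod ℓ)) [W'.IsElliptic]
  (k : Type*) [Field k] [DecidableEq k] [Algebra (ZMod ℓ) k]

/-- The inclusion of the constants. -/
noncomputable def s58f_j : k →ₐ[ZMod ℓ] s58f_K ℓ W' k :=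
  IsScalarTower.toAlgHom (ZMod ℓ) k (s58f_K ℓ W' k)

theorem s58f_j_apply (a : k) : s58f_j ℓ W' k a = algebraMap k (s58f_K ℓ W' k) a := rfl

theorem s58f_j_injective : Function.Injective (s58f_j ℓ W' k) :=
  (algebraMap k (s58f_K ℓ W' k)).injective

/-- The subgroup of constant points. -/
noncomputable def s58f_constSub : AddSubgroup (W'⁄(s58f_K ℓ W' k)).Point :=
  (Point.map (W' := W') (s58f_j ℓ W' k)).range

theorem s58f_mem_constSub (Q : (W'⁄(s58f_K ℓ W' k)).Point) :
    Q ∈ s58f_constSub ℓ W' k ↔ ∃ Q0 : (W'⁄k).Point, Point.map (W' := W') (s58f_j ℓ W' k) Q0 = Q :=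
  Iff.rfl

/-- Constant points are stable under the action. -/
theorem s58f_const_act {Q : (W'⁄(s58f_K ℓ W' k)).Point} (hQ : Q ∈ s58f_constSub ℓ W' k)
    (ψ : ℤ[X]) : s58f_act ℓ W' (s58f_K ℓ W' k) ψ Q ∈ s58f_constSub ℓ W' k := by
  obtain ⟨Q0, rfl⟩ := hQ
  exact ⟨s58f_act ℓ W' k ψ Q0, s58f_map_act ℓ W' (s58f_j ℓ W' k) ψ Q0⟩

/-- Constant points have degree `0`. -/
theorem s58f_const_deg {Q : (W'⁄(s58f_K ℓ W' k)).Point} (hQ : Q ∈ s58f_constSub ℓ W' k) :
    s58p_degA (k := k) Q = 0 := by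
  obtain ⟨Q0, rfl⟩ := hQ
  rcases Q0 with _ | ⟨a, b, h0⟩
  · exact s58p_degA_zero (s58f_polyInj ℓ W' k)
  · rw [Point.map_some]
    have hr : s58p_RepA (k := k) (WF := W'⁄(s58f_K ℓ W' k))
        (Point.some (s58f_j ℓ W' k a) (s58f_j ℓ W' k b)
          ((Affine.baseChange_nonsingular (W := W') (f := s58f_j ℓ W' k)
            (s58f_j_injective ℓ W' k) a b).mpr h0)) (C a) 1 := by
      refine s58p_repA_some _ isCoprime_one_right ?_ ?_
      · rw [map_one]; exact one_ne_zero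
      · rw [map_one, mul_one, s58f_algebraMap_C]; rfl
    rw [s58p_degA_eq (s58f_polyInj ℓ W' k) hr]
    simp

variable [IsAlgClosed k]

/-- A point with constant `x`-coordinate is constant. -/
theorem s58f_const_of_x {u v : s58f_K ℓ W' k} (h : (W'⁄(s58f_K ℓ W' k)).Nonsingular u v)
    {a : k} (ha : algebraMap k (s58f_K ℓ W' k) a = u) :
    Point.some u v h ∈ s58f_constSub ℓ W' k := by
  subst ha
  obtain ⟨b, rfl⟩ := s58f_y_const (W'⁄k).toAffine (s58f_eqAt_of_nonsingular ℓ W' k h)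
  have h0 : (W'⁄k).Nonsingular a b :=
    (Affine.baseChange_nonsingular (W := W') (f := s58f_j ℓ W' k)
      (s58f_j_injective ℓ W' k) a b).mp h
  refine ⟨Point.some a b h0, ?_⟩
  rw [Point.map_some]
  rfl

/-- A non-constant affine point has transcendental `x`-coordinate. -/
theorem s58f_transcendental_of_not_const {u v : s58f_K ℓ W' k}
    (h : (W'⁄(s58f_K ℓ W' k)).Nonsingular u v)
    (hQ : Point.some u v h ∉ s58f_constSub ℓ W' k) : Transcendental k u :=
  s58f_transcendental_of_not_mem_range fun _ ha => hQ (s58f_const_of_x ℓ W' k h ha)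

/-- A rational point of degree `0` is constant. -/
theorem s58f_const_of_deg {Q : (W'⁄(s58f_K ℓ W' k)).Point} (hr : s58p_IsRatA (k := k) Q)
    (hd : s58p_degA (k := k) Q = 0) : Q ∈ s58f_constSub ℓ W' k := by
  rcases Q with _ | ⟨u, v, h⟩
  · exact (s58f_constSub ℓ W' k).zero_mem
  · obtain ⟨a, b, hab⟩ := hr
    rw [s58p_degA_eq (s58f_polyInj ℓ W' k) hab] at hd
    have ha : a.natDegree = 0 := by omega
    have hb : b.natDegree = 0 := by omega
    obtain ⟨hb0, hx⟩ := s58p_repA_some_iff h hab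
    rw [eq_C_of_natDegree_eq_zero ha, eq_C_of_natDegree_eq_zero hb, s58f_algebraMap_C,
      s58f_algebraMap_C] at hx
    have hb1 : b.coeff 0 ≠ 0 := by
      intro h0
      apply hb0
      rw [eq_C_of_natDegree_eq_zero hb, h0, C_0]
    apply s58f_const_of_x ℓ W' k h (a := a.coeff 0 / b.coeff 0)
    rw [map_div₀, div_eq_iff ((_root_.map_ne_zero _).mpr hb1)]
    exact hx.symm

end Fermat.Agent.S58
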