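import Mathlib
import Fermat.Agent.S58.Fun.Const

/-!
# S58 / [KL-FUN]: multiplicativity of `N` (F4) and the killing lemma (F5)
-/

set_option autoImplicit false
set_option linter.unusedSectionVars false

namespace Fermat.Agent.S58

open WeierstrassCurve WeierstrassCurve.Affine Polynomial

variable (ℓ : ℕ) [Fact ℓ.Prime] (W' : WeierstrassCurve (ZMod ℓ)) [W'.IsElliptic]
  (k : Type*) [Field k] [DecidableEq k] [Algebra (ZMod ℓ) k]

theorem s58f_algebraMap_hom (n : ℕ) (A c d : k[X]) :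
    algebraMap k[X] (s58f_K ℓ W' k) (s58p_hom n A c d) =
      s58p_hom n A (algebraMap k[X] (s58f_K ℓ W' k) c) (algebraMap k[X] (s58f_K ℓ W' k) d) := by
  apply s58p_hom_map
  intro a
  rw [Polynomial.algebraMap_eq, s58f_algebraMap_C]

/-- The representation of the image of a represented point under evaluation. -/
theorem s58f_rep_map_theta {u v : s58f_K ℓ W' k} (h : (W'⁄(s58f_K ℓ W' k)).Nonsingular u v)
    (htr : Transcendental k u) {c d : k[X]}
    (hcd : s58p_RepA (k := k) (Point.some u v h) c d)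
    {r s : s58f_K ℓ W' k} (hR : (W'⁄(s58f_K ℓ W' k)).Nonsingular r s) {a b : k[X]}
    (hab : s58p_RepA (k := k) (Point.some r s hR) a b) :
    s58p_RepA (k := k) (Point.map (W' := W') (s58f_theta h htr) (Point.some r s hR))
      (s58p_hom (max a.natDegree b.natDegree) a c d)
      (s58p_hom (max a.natDegree b.natDegree) b c d) := by
  obtain ⟨hb0, hx⟩ := s58p_repA_some_iff hR hab
  obtain ⟨hd0, hu⟩ := s58p_repA_some_iff h hcd
  have hδ : algebraMap k[X] (s58f_K ℓ W' k) d ≠ 0 :=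
    fun h0 => hd0 (s58f_polyInj ℓ W' k (h0.trans (map_zero _).symm))
  have hu' : u = algebraMap k[X] (s58f_K ℓ W' k) c / algebraMap k[X] (s58f_K ℓ W' k) d := by
    rw [eq_div_iff hδ, hu]
  have key : ∀ A : k[X], A.natDegree ≤ max a.natDegree b.natDegree →
      algebraMap k[X] (s58f_K ℓ W' k) (s58p_hom (max a.natDegree b.natDegree) A c d) =
        algebraMap k[X] (s58f_K ℓ W' k) d ^ (max a.natDegree b.natDegree) * aeval u A := by
    intro A hA
    rw [s58f_algebraMap_hom, s58p_hom_eq_aeval hA _ hδ, ← hu']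
  have hθ := congrArg (s58f_theta h htr) hx
  rw [map_mul, s58f_theta_poly, s58f_theta_poly] at hθ
  rw [Point.map_some]
  refine s58p_repA_some _ (s58p_coprime_hom hab.1 hcd.1 rfl) ?_ ?_
  · rw [key b (le_max_right _ _)]
    refine mul_ne_zero (pow_ne_zero _ hδ) ?_
    exact fun h0 => hb0 ((transcendental_iff.mp htr) b h0)
  · rw [key b (le_max_right _ _), key a (le_max_left _ _), ← hθ]
    ring

variable [IsAlgClosed k]

/-- **(F4)** `N` is multiplicative. -/
theorem s58f_N_mul (ψ χ : ℤ[X]) :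
    s58f_N ℓ W' k (ψ * χ) = s58f_N ℓ W' k ψ * s58f_N ℓ W' k χ := by
  unfold s58f_N
  rw [s58f_act_mul]
  by_cases hc : s58f_act ℓ W' (s58f_K ℓ W' k) χ (s58f_P0 ℓ W' k) ∈ s58f_constSub ℓ W' k
  · rw [s58f_const_deg ℓ W' k (s58f_const_act ℓ W' k hc ψ), s58f_const_deg ℓ W' k hc, mul_zero]
  · obtain ⟨c, d, hcd⟩ := s58f_isRat ℓ W' k χ
    obtain ⟨a, b, hab⟩ := s58f_isRat ℓ W' k ψ
    generalize s58f_act ℓ W' (s58f_K ℓ W' k) χ (s58f_P0 ℓ W' k) = Q at hc hcd
    rcases Q with _ | ⟨u, v, h⟩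
    · exact absurd (s58f_constSub ℓ W' k).zero_mem hc
    · have htr := s58f_transcendental_of_not_const ℓ W' k h hc
      rw [s58f_act_eq_map_theta h htr ψ]
      generalize s58f_act ℓ W' (s58f_K ℓ W' k) ψ (s58f_P0 ℓ W' k) = R at hab
      rcases R with _ | ⟨r, s, hR⟩
      · have h0 : (Point.zero : (W'⁄(s58f_K ℓ W' k)).Point) = 0 := rfl
        rw [h0, map_zero, s58p_degA_zero (s58f_polyInj ℓ W' k), zero_mul]
      · have hrep := s58f_rep_map_theta ℓ W' k h htr hcd hR hab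
        obtain ⟨hd0, -⟩ := s58p_repA_some_iff h hcd
        have hne : ![c, d] ≠ 0 := by
          intro h0
          apply hd0
          simpa using congrFun h0 1
        rw [s58p_degA_eq (s58f_polyInj ℓ W' k) hrep, s58p_degA_eq (s58f_polyInj ℓ W' k) hab,
          s58p_degA_eq (s58f_polyInj ℓ W' k) hcd, s58p_H_hom hab.1 hne rfl]

theorem s58f_N_mul_int (ψ χ : ℤ[X]) :
    (s58f_N ℓ W' k (ψ * χ) : ℤ) = (s58f_N ℓ W' k ψ : ℤ) * (s58f_N ℓ W' k χ : ℤ) := by
  exact_mod_cast s58f_N_mul ℓ W' k ψ χ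

omit [IsAlgClosed k] in
theorem s58f_theta_comp_j {u v : s58f_K ℓ W' k} (h : (W'⁄(s58f_K ℓ W' k)).Nonsingular u v)
    (htr : Transcendental k u) : (s58f_theta h htr).comp (s58f_j ℓ W' k) = s58f_j ℓ W' k := by
  ext a
  exact s58f_theta_const h htr a

omit [IsAlgClosed k] in
theorem s58f_P0_not_const : s58f_P0 ℓ W' k ∉ s58f_constSub ℓ W' k := by
  intro hc
  have h1 := s58f_const_deg ℓ W' k hc
  rw [s58p_degA_eq (s58f_polyInj ℓ W' k) (s58f_rep_P0 ℓ W' k)] at h1
  simp at h1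

/-- If `ψ·P₀ = c` is constant then `ψ·T = c` for every non-constant point `T`. -/
theorem s58f_act_nonconst {ψ : ℤ[X]} {c0 : (W'⁄k).Point}
    (hc0 : Point.map (W' := W') (s58f_j ℓ W' k) c0 =
      s58f_act ℓ W' (s58f_K ℓ W' k) ψ (s58f_P0 ℓ W' k))
    {T : (W'⁄(s58f_K ℓ W' k)).Point} (hT : T ∉ s58f_constSub ℓ W' k) :
    s58f_act ℓ W' (s58f_K ℓ W' k) ψ T = Point.map (W' := W') (s58f_j ℓ W' k) c0 := by
  rcases T with _ | ⟨u, v, h⟩
  · exact absurd (s58f_constSub ℓ W' k).zero_mem hT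
  · have htr := s58f_transcendental_of_not_const ℓ W' k h hT
    rw [s58f_act_eq_map_theta h htr ψ, ← hc0, Point.map_map, s58f_theta_comp_j]

/-- **(F5)** if `N(ψ) = 0` then `ψ(Frob)` kills every point of `W'` over `k`. -/
theorem s58f_kills (ψ : ℤ[X]) (hN : s58f_N ℓ W' k ψ = 0) (Q0 : (W'⁄k).Point) :
    s58f_act ℓ W' k ψ Q0 = 0 := by
  obtain ⟨c0, hc0⟩ := s58f_const_of_deg ℓ W' k (s58f_isRat ℓ W' k ψ) hN
  -- `c = 0`, using the non-constant points `P₀` and `P₀ + P₀`
  have h2 : s58f_P0 ℓ W' k + s58f_P0 ℓ W' k ∉ s58f_constSub ℓ W' k := by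
    intro hc
    have h1 := s58f_const_deg ℓ W' k hc
    have h4 := s58f_N_parallelogram ℓ W' k 1 1
    rw [sub_self, s58f_N_zero, s58f_N_one] at h4
    unfold s58f_N at h4
    rw [s58f_act_add, s58f_act_one, h1] at h4
    omega
  have hcc := s58f_act_nonconst ℓ W' k hc0 h2
  rw [map_add, ← hc0] at hcc
  have hczero : Point.map (W' := W') (s58f_j ℓ W' k) c0 = 0 := by
    have : Point.map (W' := W') (s58f_j ℓ W' k) c0 + Point.map (W' := W') (s58f_j ℓ W' k) c0 =
        Point.map (W' := W') (s58f_j ℓ W' k) c0 + 0 := by rw [hcc, add_zero]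
    exact add_left_cancel this
  -- now an arbitrary constant point
  have hT : Point.map (W' := W') (s58f_j ℓ W' k) Q0 + s58f_P0 ℓ W' k ∉ s58f_constSub ℓ W' k := by
    intro hc
    apply s58f_P0_not_const ℓ W' k
    have := (s58f_constSub ℓ W' k).sub_mem hc ⟨Q0, rfl⟩
    rwa [add_sub_cancel_left] at this
  have hkill := s58f_act_nonconst ℓ W' k hc0 hT
  rw [map_add, ← hc0, hczero, add_zero, ← s58f_map_act] at hkill
  apply Point.map_injective (W' := W') (s58f_j ℓ W' k)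
  rw [hkill, map_zero]

end Fermat.Agent.S58
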