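import Mathlib
import Fermat.Agent.S58.Fun.Main
import Fermat.Agent.S58.QuadAlg

/-!
# S58 / [FROB-ASM] part 1: the trace relation on `W'(k)`, `k` algebraically closed

`Frob² - t Frob + ℓ = 0` on `W'(k)` with `t = ℓ + 1 - N(X - 1)`.
-/

set_option autoImplicit false
set_option linter.unusedSectionVars false

namespace Fermat.Agent.S58

open WeierstrassCurve WeierstrassCurve.Affine Polynomial

variable (ℓ : ℕ) [Fact ℓ.Prime] (W' : WeierstrassCurve (ZMod ℓ)) [W'.IsElliptic]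
  (k : Type*) [Field k] [DecidableEq k] [Algebra (ZMod ℓ) k]

theorem s58f_N_X : s58f_N ℓ W' k X = ℓ := by
  have := s58f_N_X_mul ℓ W' k 1
  rwa [mul_one, s58f_N_one, mul_one] at this

/-- `N(X + 1) + N(X - 1) = 2ℓ + 2`. -/
theorem s58f_N_X_add_one : s58f_N ℓ W' k (X + 1) + s58f_N ℓ W' k (X - 1) = 2 * ℓ + 2 := by
  have := s58f_N_parallelogram ℓ W' k X 1
  rwa [s58f_N_X, s58f_N_one, mul_one] at this

variable [IsAlgClosed k]

/-- The trace `t = ℓ + 1 - N(X - 1)`. -/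
noncomputable def s58f_t : ℤ := (ℓ : ℤ) + 1 - (s58f_N ℓ W' k (X - 1) : ℤ)

/-- `N(X² - t X + ℓ) = 0`. -/
theorem s58f_N_charpoly :
    s58f_N ℓ W' k (X ^ 2 - C (s58f_t ℓ W' k) * X + C (ℓ : ℤ)) = 0 := by
  have h := s58q_main_nat (s58f_N ℓ W' k) (s58f_N_parallelogram ℓ W' k) (s58f_N_mul ℓ W' k)
    (s58f_N_one ℓ W' k) X
  have h1 := s58f_N_X_add_one ℓ W' k
  have ht : ((s58f_N ℓ W' k (X + 1) : ℤ) - (s58f_N ℓ W' k X : ℤ) - 1 : ℤ) = s58f_t ℓ W' k := by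
    unfold s58f_t
    rw [s58f_N_X]
    have : (s58f_N ℓ W' k (X + 1) : ℤ) + (s58f_N ℓ W' k (X - 1) : ℤ) = 2 * (ℓ : ℤ) + 2 := by
      exact_mod_cast h1
    linarith
  rw [ht, s58f_N_X] at h
  have e : (X ^ 2 - C (s58f_t ℓ W' k) * X + C (ℓ : ℤ) : ℤ[X]) =
      X ^ 2 - ((s58f_t ℓ W' k : ℤ) : ℤ[X]) * X + ((ℓ : ℕ) : ℤ[X]) := by
    simp
  rw [e]
  exact h

/-- **The trace relation**: `Frob² Q - t Frob Q + ℓ Q = 0` for every `Q ∈ W'(k)`. -/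
theorem s58f_trace (Q : (W'⁄k).Point) :
    s58f_frob ℓ W' k (s58f_frob ℓ W' k Q) - s58f_t ℓ W' k • s58f_frob ℓ W' k Q + (ℓ : ℤ) • Q = 0 := by
  have h := s58f_kills ℓ W' k _ (s58f_N_charpoly ℓ W' k) Q
  rw [s58f_act_add, s58f_act_sub, s58f_act_C, pow_two, s58f_act_mul, s58f_act_mul, s58f_act_X,
    s58f_act_X, s58f_act_C] at h
  exact h

end Fermat.Agent.S58
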